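/-
S58 [RED-HOM] (helper21): the slope of the chord / tangent through two integral points whose
reductions are not inverse to each other is integral and reduces to the slope of the reductions.
All residue characteristics.  Prefix `s58r_`.
-/
import Mathlib

set_option autoImplicit false

namespace Fermat.Agent.S58

open WeierstrassCurve WeierstrassCurve.Affine IsLocalRing

variable {F : Type*} [Field F] [DecidableEq F] (A : ValuationSubring F)
  [DecidableEq (ResidueField A)] (WA : WeierstrassCurve A)

/-- the identity `(y₁ - y₂)(y₁ - negY(x₂, y₂)) = (x₁ - x₂) T` for two points of a Weierstrass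
equation over a commutative ring -/
theorem s58r_chord_identity {R : Type*} [CommRing R] (W : Affine R) {x₁ y₁ x₂ y₂ : R}
    (h₁ : W.Equation x₁ y₁) (h₂ : W.Equation x₂ y₂) :
    (y₁ - y₂) * (y₁ - W.negY x₂ y₂) =
      (x₁ - x₂) * (x₁ ^ 2 + x₁ * x₂ + x₂ ^ 2 + W.a₂ * (x₁ + x₂) + W.a₄ - W.a₁ * y₁) := by
  rw [equation_iff] at h₁ h₂
  simp only [negY]
  linear_combination h₁ - h₂

/-- **The slope lifts.** Two points of the integral equation whose reductions are not inverse to
each other: the slope over `F` is integral and reduces to the slope over the residue field. -/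
theorem s58r_slope_lift {a₁ b₁ a₂ b₂ : A}
    (h₁ : WA.toAffine.Equation a₁ b₁) (h₂ : WA.toAffine.Equation a₂ b₂)
    (hne : ¬ (residue A a₁ = residue A a₂ ∧
      residue A b₁ = (WA.map (residue A)).toAffine.negY (residue A a₂) (residue A b₂))) :
    ∃ l : A, (WA.map A.subtype).toAffine.slope (a₁ : F) a₂ b₁ b₂ = l ∧
      (WA.map (residue A)).toAffine.slope (residue A a₁) (residue A a₂) (residue A b₁)
        (residue A b₂) = residue A l := by
  have hinj : Function.Injective A.subtype := Subtype.coe_injective
  by_cases hx : residue A a₁ = residue A a₂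
  · -- tangent-like case
    have hy : residue A b₁ ≠ (WA.map (residue A)).toAffine.negY (residue A a₂) (residue A b₂) :=
      fun h => hne ⟨hx, h⟩
    have hyy : residue A b₁ = residue A b₂ :=
      (Y_eq_of_X_eq (h₁.map (residue A)) (h₂.map (residue A)) hx).resolve_right hy
    set d : A := b₁ - WA.toAffine.negY a₂ b₂ with hd
    set T : A := a₁ ^ 2 + a₁ * a₂ + a₂ ^ 2 + WA.a₂ * (a₁ + a₂) + WA.a₄ - WA.a₁ * b₁ with hT
    have hπd : residue A d ≠ 0 := by
      rw [hd, map_sub, ← map_negY]
      exact sub_ne_zero.mpr hy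
    have hdu : IsUnit d := (residue_ne_zero_iff_isUnit d).mp hπd
    obtain ⟨u, hu⟩ := hdu
    have hud : (↑u⁻¹ : A) * d = 1 := by rw [← hu]; exact Units.inv_mul u
    have hd0 : (d : F) ≠ 0 := by
      intro h0
      have : d = 0 := Subtype.ext h0
      rw [this, map_zero] at hπd
      exact hπd rfl
    have hid := s58r_chord_identity WA.toAffine h₁ h₂
    refine ⟨T * ↑u⁻¹, ?_, ?_⟩
    · -- over `F`
      have hTd : ((T * ↑u⁻¹ : A) : F) = (T : F) / (d : F) := by
        rw [eq_div_iff hd0]
        have : (T * ↑u⁻¹ : A) * d = T := by rw [mul_assoc, hud, mul_one]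
        exact_mod_cast congrArg (fun z : A => (z : F)) this
      rw [hTd]
      have hidF : ((b₁ : F) - b₂) * (d : F) = ((a₁ : F) - a₂) * (T : F) := by
        exact_mod_cast congrArg (fun z : A => (z : F)) hid
      by_cases hxF : (a₁ : F) = a₂
      · have hxA : a₁ = a₂ := Subtype.ext hxF
        have hyF : (b₁ : F) ≠ (WA.map A.subtype).toAffine.negY (a₂ : F) (b₂ : F) := by
          intro h
          have h' : A.subtype b₁ = (WA.map A.subtype).toAffine.negY (A.subtype a₂) (A.subtype b₂) := h
          rw [map_negY] at h'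
          have : b₁ = WA.toAffine.negY a₂ b₂ := hinj h'
          apply hy
          rw [this, ← map_negY]
        have hbb : (b₁ : F) = b₂ :=
          (Y_eq_of_X_eq ((h₁.map A.subtype)) ((h₂.map A.subtype)) hxF).resolve_right hyF
        have hbA : b₁ = b₂ := Subtype.ext hbb
        rw [slope_of_Y_ne hxF hyF]
        subst hxA hbA
        congr 1
        · simp only [hT, map_a₂, map_a₄, map_a₁]
          push_cast
          simp only [ValuationSubring.subtype_apply]
          ring
      · rw [slope_of_X_ne hxF, div_eq_div_iff (sub_ne_zero.mpr hxF) hd0, hidF]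
        ring
    · -- over the residue field
      rw [slope_of_Y_ne hx hy, map_mul]
      have hπu : residue A (↑u⁻¹ : A) = (residue A d)⁻¹ := by
        apply eq_inv_of_mul_eq_one_left
        rw [← map_mul, hud, map_one]
      rw [hπu, ← div_eq_mul_inv]
      congr 1
      · simp only [hT, map_a₂, map_a₄, map_a₁, map_sub, map_add, map_mul, map_pow, ← hx]
        ring
      · rw [hd, map_sub, ← map_negY, ← hx, ← hyy]
  · -- chord case
    have hπu : residue A (a₁ - a₂) ≠ 0 := by rw [map_sub]; exact sub_ne_zero.mpr hx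
    obtain ⟨u, hu⟩ := (residue_ne_zero_iff_isUnit _).mp hπu
    have hud : (↑u⁻¹ : A) * (a₁ - a₂) = 1 := by rw [← hu]; exact Units.inv_mul u
    have hxF : (a₁ : F) ≠ a₂ := by
      intro h
      exact hx (congrArg (residue A) (Subtype.ext h))
    refine ⟨(b₁ - b₂) * ↑u⁻¹, ?_, ?_⟩
    · rw [slope_of_X_ne hxF, div_eq_iff (sub_ne_zero.mpr hxF)]
      have : ((b₁ - b₂) * ↑u⁻¹ : A) * (a₁ - a₂) = b₁ - b₂ := by rw [mul_assoc, hud, mul_one]
      exact_mod_cast (congrArg (fun z : A => (z : F)) this).symm
    · rw [slope_of_X_ne hx, map_mul]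
      have hπi : residue A (↑u⁻¹ : A) = (residue A (a₁ - a₂))⁻¹ := by
        apply eq_inv_of_mul_eq_one_left
        rw [← map_mul, hud, map_one]
      rw [hπi, ← div_eq_mul_inv, map_sub, map_sub]

end Fermat.Agent.S58
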