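/-
S58 [RED-HOM] (helper21): valuation lemmas.  `F` a field, `A` a valuation subring.
* `s58r_val_eval_eq`: dominant term of a polynomial with integral coefficients and unit top
  coefficient at a non-integral argument;
* `s58r_root_mem`, `s58r_root_lt_one`: roots of `X² - s X + p`.
Prefix `s58r_`.
-/
import Mathlib

set_option autoImplicit false

namespace Fermat.Agent.S58

open Polynomial

variable {F : Type*} [Field F] (A : ValuationSubring F)

theorem s58r_one_lt_of_not_mem {x : F} (hx : x ∉ A) : 1 < A.valuation x := by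
  rw [← not_le, A.valuation_le_one_iff]; exact hx

theorem s58r_not_mem_of_one_lt {x : F} (hx : 1 < A.valuation x) : x ∉ A := by
  rw [← A.valuation_le_one_iff, not_le]; exact hx

theorem s58r_mem_of_le_one {x : F} (hx : A.valuation x ≤ 1) : x ∈ A :=
  (A.valuation_le_one_iff x).mp hx

theorem s58r_mem_of_lt_one {x : F} (hx : A.valuation x < 1) : x ∈ A :=
  (A.valuation_le_one_iff x).mp hx.le

theorem s58r_le_one_of_mem {x : F} (hx : x ∈ A) : A.valuation x ≤ 1 :=
  (A.valuation_le_one_iff x).mpr hx

theorem s58r_ne_zero_of_not_mem {x : F} (hx : x ∉ A) : x ≠ 0 := by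
  rintro rfl; exact hx A.zero_mem

/-- **Dominant term.** `p` with coefficients in `A`, degree `≤ N`, coefficient at `N` a unit,
`x ∉ A`: `v(p(x)) = v(x) ^ N`. -/
theorem s58r_val_eval_eq (p : F[X]) (N : ℕ) (hdeg : p.natDegree ≤ N)
    (hc : ∀ i, p.coeff i ∈ A) (hN : A.valuation (p.coeff N) = 1) {x : F} (hx : x ∉ A) :
    A.valuation (p.eval x) = A.valuation x ^ N := by
  have h1 : 1 < A.valuation x := s58r_one_lt_of_not_mem A hx
  have h0 : A.valuation x ≠ 0 := (lt_trans zero_lt_one h1).ne'
  rw [eval_eq_sum_range' (Nat.lt_succ_of_le hdeg), Finset.sum_range_succ]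
  have htop : A.valuation (p.coeff N * x ^ N) = A.valuation x ^ N := by
    rw [map_mul, hN, one_mul, map_pow]
  have hlow : A.valuation (∑ i ∈ Finset.range N, p.coeff i * x ^ i) < A.valuation x ^ N := by
    refine Valuation.map_sum_lt _ (pow_ne_zero N h0) fun i hi => ?_
    rw [map_mul, map_pow]
    calc A.valuation (p.coeff i) * A.valuation x ^ i ≤ 1 * A.valuation x ^ i :=
          mul_le_mul' (s58r_le_one_of_mem A (hc i)) le_rfl
      _ = A.valuation x ^ i := one_mul _
      _ < A.valuation x ^ N := pow_lt_pow_right₀ h1 (Finset.mem_range.mp hi)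
  rw [add_comm, Valuation.map_add_eq_of_lt_left _ (by rw [htop]; exact hlow), htop]

/-- A root of `X² - s X + p`, `s p ∈ A`, lies in `A`. -/
theorem s58r_root_mem {s p X : F} (hs : s ∈ A) (hp : p ∈ A) (h : X ^ 2 - s * X + p = 0) :
    X ∈ A := by
  by_contra hX
  have h1 : 1 < A.valuation X := s58r_one_lt_of_not_mem A hX
  have h0 : (0 : A.ValueGroup) < A.valuation X := lt_trans zero_lt_one h1
  have h2 : A.valuation X < A.valuation (X ^ 2) := by
    rw [map_pow, pow_two]
    calc A.valuation X = A.valuation X * 1 := (mul_one _).symm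
      _ < A.valuation X * A.valuation X := mul_lt_mul_of_pos_left h1 h0
  have h3 : A.valuation (-(s * X) + p) < A.valuation (X ^ 2) := by
    refine lt_of_le_of_lt (A.valuation.map_add _ _) (max_lt ?_ ?_)
    · rw [Valuation.map_neg, map_mul]
      calc A.valuation s * A.valuation X ≤ 1 * A.valuation X :=
            mul_le_mul' (s58r_le_one_of_mem A hs) le_rfl
        _ = A.valuation X := one_mul _
        _ < _ := h2
    · exact lt_of_le_of_lt (s58r_le_one_of_mem A hp) (lt_trans h1 h2)
  have e : X ^ 2 - s * X + p = X ^ 2 + (-(s * X) + p) := by ring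
  rw [e] at h
  have hv := Valuation.map_add_eq_of_lt_left A.valuation h3
  rw [h, map_zero] at hv
  rw [← hv] at h2
  exact absurd h2 (not_lt.mpr zero_le)

/-- A root of `X² - s X + p`, `v(s), v(p) < 1`, has `v(X) < 1`. -/
theorem s58r_root_lt_one {s p X : F} (hs : A.valuation s < 1) (hp : A.valuation p < 1)
    (h : X ^ 2 - s * X + p = 0) : A.valuation X < 1 := by
  have hX : X ∈ A := s58r_root_mem A (s58r_mem_of_lt_one A hs) (s58r_mem_of_lt_one A hp) h
  by_contra hlt
  have h1 : A.valuation X = 1 := le_antisymm (s58r_le_one_of_mem A hX) (not_lt.mp hlt)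
  have e : X ^ 2 = s * X - p := by linear_combination h
  have h2 : A.valuation (X ^ 2) = 1 := by rw [map_pow, h1, one_pow]
  have h3 : A.valuation (s * X - p) < 1 := by
    refine lt_of_le_of_lt (A.valuation.map_sub _ _) (max_lt ?_ hp)
    rw [map_mul, h1, mul_one]; exact hs
  rw [e] at h2
  exact absurd h2 h3.ne

end Fermat.Agent.S58
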