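/-
S58 [RED-HOM] (helper21): the reduction relation and the sum of two integral points.

`F` a field, `A` a valuation subring, `WA` a Weierstrass equation over `A`, `W := WA.map A.subtype`
over `F`, `Wk := WA.map (residue A)` over the residue field.
* `s58r_RedTo P R`: the point `P` of `W(F)` reduces to the (nonsingular) point `R` of `Wk`;
* `s58r_aff_add_aff`: two integral points with nonsingular, non-inverse reductions;
* `s58r_aff_add_aff_inv`: two integral points with nonsingular, inverse reductions: the sum is in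
  the kernel of reduction.
All residue characteristics.  Prefix `s58r_`.
-/
import Mathlib
import Fermat.Agent.S58.Red.Val
import Fermat.Agent.S58.Red.Slope

set_option autoImplicit false

namespace Fermat.Agent.S58

open WeierstrassCurve WeierstrassCurve.Affine IsLocalRing Polynomial

variable {F : Type*} [Field F] [DecidableEq F] (A : ValuationSubring F)
  [DecidableEq (ResidueField A)]

/-- `P` reduces to `R`: either `P = 0`, or `x(P) ∉ A` (then `R = 0`), or `P` has coordinates in
`A` whose residues are the coordinates of the (nonsingular) point `R`. -/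
inductive s58r_RedTo {W : Affine F} {Wk : Affine (ResidueField A)} : W.Point → Wk.Point → Prop
  | zero : s58r_RedTo 0 0
  | inf {x y : F} (h : W.Nonsingular x y) (hx : x ∉ A) : s58r_RedTo (Point.some x y h) 0
  | aff (a b : A) (h : W.Nonsingular (a : F) (b : F))
      (h' : Wk.Nonsingular (residue A a) (residue A b)) :
      s58r_RedTo (Point.some (a : F) (b : F) h) (Point.some _ _ h')

/-- the relations satisfied by the slope of a non-vertical line -/
theorem s58r_slope_rel {K : Type*} [Field K] [DecidableEq K] (W : Affine K) {x₁ y₁ x₂ y₂ : K}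
    (h₁ : W.Equation x₁ y₁) (h₂ : W.Equation x₂ y₂)
    (hxy : ¬ (x₁ = x₂ ∧ y₁ = W.negY x₂ y₂)) :
    W.slope x₁ x₂ y₁ y₂ * (x₁ - x₂) = y₁ - y₂ ∧
      W.slope x₁ x₂ y₁ y₂ * (y₁ - W.negY x₂ y₂) =
        x₁ ^ 2 + x₁ * x₂ + x₂ ^ 2 + W.a₂ * (x₁ + x₂) + W.a₄ - W.a₁ * y₁ := by
  have hid := s58r_chord_identity W h₁ h₂
  by_cases hx : x₁ = x₂
  · have hy : y₁ ≠ W.negY x₂ y₂ := fun h => hxy ⟨hx, h⟩
    have hyy : y₁ = y₂ := (Y_eq_of_X_eq h₁ h₂ hx).resolve_right hy
    subst hx hyy
    have hd : y₁ - W.negY x₁ y₁ ≠ 0 := sub_ne_zero.mpr hy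
    rw [slope_of_Y_ne rfl hy]
    refine ⟨by ring, ?_⟩
    rw [div_mul_cancel₀ _ hd]
    ring
  · have hd : x₁ - x₂ ≠ 0 := sub_ne_zero.mpr hx
    rw [slope_of_X_ne hx]
    refine ⟨div_mul_cancel₀ _ hd, ?_⟩
    rw [div_mul_eq_mul_div, hid, mul_div_assoc, mul_comm, div_mul_cancel₀]
    · exact hd

variable (WA : WeierstrassCurve A)

/-- **Sum of two integral points, non-inverse reductions.** -/
theorem s58r_aff_add_aff {a₁ b₁ a₂ b₂ : A}
    (h₁ : (WA.map A.subtype).toAffine.Nonsingular (a₁ : F) (b₁ : F))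
    (h₂ : (WA.map A.subtype).toAffine.Nonsingular (a₂ : F) (b₂ : F))
    (h₁' : (WA.map (residue A)).toAffine.Nonsingular (residue A a₁) (residue A b₁))
    (h₂' : (WA.map (residue A)).toAffine.Nonsingular (residue A a₂) (residue A b₂))
    (hne : ¬ (residue A a₁ = residue A a₂ ∧
      residue A b₁ = (WA.map (residue A)).toAffine.negY (residue A a₂) (residue A b₂))) :
    ∃ (a₃ b₃ : A) (h₃ : (WA.map A.subtype).toAffine.Nonsingular (a₃ : F) (b₃ : F))
      (h₃' : (WA.map (residue A)).toAffine.Nonsingular (residue A a₃) (residue A b₃)),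
      Point.some _ _ h₁ + Point.some _ _ h₂ = Point.some _ _ h₃ ∧
      Point.some _ _ h₁' + Point.some _ _ h₂' = Point.some _ _ h₃' := by
  have hinj : Function.Injective A.subtype := Subtype.coe_injective
  have e₁ : WA.toAffine.Equation a₁ b₁ := (map_equation (W := WA.toAffine) hinj a₁ b₁).mp h₁.1
  have e₂ : WA.toAffine.Equation a₂ b₂ := (map_equation (W := WA.toAffine) hinj a₂ b₂).mp h₂.1
  obtain ⟨l, hl, hl'⟩ := s58r_slope_lift A WA e₁ e₂ hne
  have hneF : ¬ ((a₁ : F) = a₂ ∧
      (b₁ : F) = (WA.map A.subtype).toAffine.negY (a₂ : F) (b₂ : F)) := by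
    rintro ⟨hx, hy⟩
    apply hne
    have hxA : a₁ = a₂ := Subtype.ext hx
    have hy' : A.subtype b₁ =
        (WA.map A.subtype).toAffine.negY (A.subtype a₂) (A.subtype b₂) := hy
    rw [map_negY] at hy'
    have hyA : b₁ = WA.toAffine.negY a₂ b₂ := hinj hy'
    refine ⟨by rw [hxA], ?_⟩
    rw [hyA, ← map_negY]
  have hx3 : (WA.map A.subtype).toAffine.addX (a₁ : F) a₂ (l : F) =
      ((WA.toAffine.addX a₁ a₂ l : A) : F) :=
    map_addX (W' := WA.toAffine) A.subtype a₁ a₂ l
  have hy3 : (WA.map A.subtype).toAffine.addY (a₁ : F) a₂ b₁ (l : F) =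
      ((WA.toAffine.addY a₁ a₂ b₁ l : A) : F) :=
    map_addY (W' := WA.toAffine) A.subtype a₁ b₁ a₂ l
  have hx3' : (WA.map (residue A)).toAffine.addX (residue A a₁) (residue A a₂) (residue A l) =
      residue A (WA.toAffine.addX a₁ a₂ l) :=
    map_addX (W' := WA.toAffine) (residue A) a₁ a₂ l
  have hy3' : (WA.map (residue A)).toAffine.addY (residue A a₁) (residue A a₂) (residue A b₁)
      (residue A l) = residue A (WA.toAffine.addY a₁ a₂ b₁ l) :=
    map_addY (W' := WA.toAffine) (residue A) a₁ b₁ a₂ l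
  have hn := nonsingular_add h₁ h₂ hneF
  have hn' := nonsingular_add h₁' h₂' hne
  rw [hl, hx3, hy3] at hn
  rw [hl', hx3', hy3'] at hn'
  refine ⟨_, _, hn, hn', ?_, ?_⟩
  · rw [Point.add_some hneF]
    congr 1 <;> simp only [hl, hx3, hy3]
  · rw [Point.add_some hne]
    congr 1 <;> simp only [hl', hx3', hy3']


omit [DecidableEq F] [DecidableEq (ResidueField A)] in
/-- `L ∉ A` forces `addX x₁ x₂ L ∉ A` for integral `x₁ x₂`. -/
theorem s58r_addX_not_mem {x₁ x₂ L : F} (hx₁ : x₁ ∈ A) (hx₂ : x₂ ∈ A) (hL : L ∉ A) :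
    (WA.map A.subtype).toAffine.addX x₁ x₂ L ∉ A := by
  intro hz
  apply hL
  have h1 : ((WA.map A.subtype).toAffine.a₁ : F) ∈ A := by
    rw [map_a₁]; exact (WA.a₁).2
  have h2 : ((WA.map A.subtype).toAffine.a₂ : F) ∈ A := by
    rw [map_a₂]; exact (WA.a₂).2
  refine s58r_root_mem A (s := -(WA.map A.subtype).toAffine.a₁)
    (p := -(WA.map A.subtype).toAffine.a₂ - x₁ - x₂ - (WA.map A.subtype).toAffine.addX x₁ x₂ L)
    (A.neg_mem _ h1) ?_ ?_
  · exact A.sub_mem (A.sub_mem (A.sub_mem (A.neg_mem _ h2) hx₁) hx₂) hz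
  · simp only [addX]
    ring

omit [DecidableEq (ResidueField A)] in
/-- **Sum of two integral points with inverse reductions**: it lies in the kernel of reduction. -/
theorem s58r_aff_add_aff_inv {a₁ b₁ a₂ b₂ : A}
    (h₁ : (WA.map A.subtype).toAffine.Nonsingular (a₁ : F) (b₁ : F))
    (h₂ : (WA.map A.subtype).toAffine.Nonsingular (a₂ : F) (b₂ : F))
    (h₂' : (WA.map (residue A)).toAffine.Nonsingular (residue A a₂) (residue A b₂))
    (hx : residue A a₁ = residue A a₂)
    (hy : residue A b₁ = (WA.map (residue A)).toAffine.negY (residue A a₂) (residue A b₂)) :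
    Point.some _ _ h₁ + Point.some _ _ h₂ = 0 ∨
      ∃ (x y : F) (h : (WA.map A.subtype).toAffine.Nonsingular x y),
        Point.some _ _ h₁ + Point.some _ _ h₂ = Point.some x y h ∧ x ∉ A := by
  have hinj : Function.Injective A.subtype := Subtype.coe_injective
  by_cases hneF : (a₁ : F) = a₂ ∧
      (b₁ : F) = (WA.map A.subtype).toAffine.negY (a₂ : F) (b₂ : F)
  · exact Or.inl (Point.add_of_Y_eq hneF.1 hneF.2)
  · right
    refine ⟨_, _, nonsingular_add h₁ h₂ hneF, Point.add_some hneF, ?_⟩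
    apply s58r_addX_not_mem A WA a₁.2 a₂.2
    intro hL
    -- the slope is integral: contradiction with the nonsingularity of the reduction
    set l : A := ⟨_, hL⟩ with hl
    have e₁ : WA.toAffine.Equation a₁ b₁ := (map_equation (W := WA.toAffine) hinj a₁ b₁).mp h₁.1
    have e₂ : WA.toAffine.Equation a₂ b₂ := (map_equation (W := WA.toAffine) hinj a₂ b₂).mp h₂.1
    obtain ⟨r1, r2⟩ := s58r_slope_rel (WA.map A.subtype).toAffine h₁.1 h₂.1 hneF
    have r1A : l * (a₁ - a₂) = b₁ - b₂ := by
      apply hinj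
      show ((l * (a₁ - a₂) : A) : F) = ((b₁ - b₂ : A) : F)
      push_cast
      exact r1
    have r2A : l * (b₁ - WA.toAffine.negY a₂ b₂) =
        a₁ ^ 2 + a₁ * a₂ + a₂ ^ 2 + WA.a₂ * (a₁ + a₂) + WA.a₄ - WA.a₁ * b₁ := by
      apply hinj
      have hneg : (WA.map A.subtype).toAffine.negY (a₂ : F) (b₂ : F) =
          ((WA.toAffine.negY a₂ b₂ : A) : F) := map_negY (W' := WA.toAffine) A.subtype a₂ b₂
      rw [hneg] at r2
      simp only [map_a₂, map_a₄, map_a₁] at r2
      show ((l * (b₁ - WA.toAffine.negY a₂ b₂) : A) : F) = _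
      push_cast
      exact r2
    have q1 := congrArg (residue A) r1A
    have q2 := congrArg (residue A) r2A
    rw [map_mul, map_sub, hx, sub_self, mul_zero, map_sub] at q1
    have hbb : residue A b₁ = residue A b₂ := (sub_eq_zero.mp q1.symm)
    rw [map_mul, map_sub, ← map_negY, hy, sub_self, mul_zero] at q2
    simp only [map_sub, map_add, map_mul, map_pow, hx, hbb] at q2
    rw [nonsingular_iff'] at h₂'
    rcases h₂'.2 with h3 | h3
    · apply h3
      simp only [map_a₁, map_a₂, map_a₄]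
      linear_combination q2
    · apply h3
      have : residue A b₂ = (WA.map (residue A)).toAffine.negY (residue A a₂) (residue A b₂) :=
        hbb.symm.trans hy
      simp only [negY, map_a₁, map_a₃] at this
      simp only [map_a₁, map_a₃]
      linear_combination this

end Fermat.Agent.S58
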