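/-
S58 [RED-HOM] (helper21): characteristic-free Kummer formulas.

For affine points `P = (x₁, y₁)`, `Q = (x₂, y₂)` with `x₁ ≠ x₂` on an arbitrary Weierstrass curve
over a field (no assumption on the characteristic):
`(x(P+Q) + x(P-Q)) (x₁-x₂)² = sumNum`, `x(P+Q) x(P-Q) (x₁-x₂)² = prodNum`
(`sumNum`, `prodNum` of `Fermat.Agent.S05`).  Prefix `s58r_`.
-/
import Mathlib
import Fermat.Agent.S05.Kummer

set_option autoImplicit false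

namespace Fermat.Agent.S58

open WeierstrassCurve WeierstrassCurve.Affine Fermat.Agent.S05

variable {F : Type*} [Field F] {W : Affine F}

/-- `addX` with an explicit slope `n / d`. -/
theorem s58r_addX_div (x₁ x₂ n d : F) (hd : d ≠ 0) :
    W.addX x₁ x₂ (n / d) * d ^ 2 = n ^ 2 + W.a₁ * n * d - (W.a₂ + x₁ + x₂) * d ^ 2 := by
  simp only [addX]
  field_simp
  ring

variable [DecidableEq F]

/-- The sum and product formulas for `x(P + Q)`, `x(P - Q)`, `x₁ ≠ x₂`, in every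
characteristic. -/
theorem s58r_add_sub {x₁ y₁ x₂ y₂ : F} (h₁ : W.Nonsingular x₁ y₁) (h₂ : W.Nonsingular x₂ y₂)
    (hx : x₁ ≠ x₂) :
    ∃ (xp yp : F) (hp : W.Nonsingular xp yp) (xm ym : F) (hm : W.Nonsingular xm ym),
      Point.some x₁ y₁ h₁ + Point.some x₂ y₂ h₂ = Point.some xp yp hp ∧
      Point.some x₁ y₁ h₁ - Point.some x₂ y₂ h₂ = Point.some xm ym hm ∧
      (xp + xm) * (x₁ - x₂) ^ 2 = sumNum W x₁ x₂ ∧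
      (xp * xm) * (x₁ - x₂) ^ 2 = prodNum W x₁ x₂ := by
  have hD : x₁ - x₂ ≠ 0 := sub_ne_zero.mpr hx
  refine ⟨_, _, nonsingular_add h₁ h₂ fun hxy => hx hxy.left, _, _,
    nonsingular_add h₁ ((nonsingular_neg ..).mpr h₂) fun hxy => hx hxy.left,
    Point.add_of_X_ne hx, ?_, ?_, ?_⟩
  · rw [sub_eq_add_neg, Point.neg_some, Point.add_of_X_ne hx]
  · have e₁ := (Affine.equation_iff ..).mp h₁.1
    have e₂ := (Affine.equation_iff ..).mp h₂.1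
    have hp := s58r_addX_div (W := W) x₁ x₂ (y₁ - y₂) (x₁ - x₂) hD
    have hm := s58r_addX_div (W := W) x₁ x₂ (y₁ - W.negY x₂ y₂) (x₁ - x₂) hD
    rw [slope_of_X_ne hx, slope_of_X_ne hx, add_mul, hp, hm]
    simp only [negY, sumNum, WeierstrassCurve.b₂, WeierstrassCurve.b₄, WeierstrassCurve.b₆]
    linear_combination 2 * e₁ + 2 * e₂
  · have e₁ := (Affine.equation_iff ..).mp h₁.1
    have e₂ := (Affine.equation_iff ..).mp h₂.1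
    have hp := s58r_addX_div (W := W) x₁ x₂ (y₁ - y₂) (x₁ - x₂) hD
    have hm := s58r_addX_div (W := W) x₁ x₂ (y₁ - W.negY x₂ y₂) (x₁ - x₂) hD
    rw [slope_of_X_ne hx, slope_of_X_ne hx]
    have hD2 : (x₁ - x₂) ^ 2 ≠ 0 := pow_ne_zero 2 hD
    apply mul_right_cancel₀ hD2
    have : W.addX x₁ x₂ ((y₁ - y₂) / (x₁ - x₂)) *
          W.addX x₁ x₂ ((y₁ - W.negY x₂ y₂) / (x₁ - x₂)) * (x₁ - x₂) ^ 2 * (x₁ - x₂) ^ 2 =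
        (W.addX x₁ x₂ ((y₁ - y₂) / (x₁ - x₂)) * (x₁ - x₂) ^ 2) *
          (W.addX x₁ x₂ ((y₁ - W.negY x₂ y₂) / (x₁ - x₂)) * (x₁ - x₂) ^ 2) := by ring
    rw [this, hp, hm]
    simp only [negY, prodNum, WeierstrassCurve.b₄, WeierstrassCurve.b₆, WeierstrassCurve.b₈]
    linear_combination
      (W.a₁ ^ 2 * x₁ * x₂ - W.a₁ ^ 2 * x₂ ^ 2 + W.a₁ * W.a₃ * x₁ - W.a₁ * W.a₃ * x₂ +
        W.a₁ * x₁ * y₁ - 2 * W.a₁ * x₂ * y₂ - W.a₂ * x₁ ^ 2 + 4 * W.a₂ * x₁ * x₂ -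
        2 * W.a₂ * x₂ ^ 2 + W.a₃ * y₁ - 2 * W.a₃ * y₂ + W.a₄ * x₁ + W.a₆ - x₁ ^ 3 +
        2 * x₁ ^ 2 * x₂ + 2 * x₁ * x₂ ^ 2 + y₁ ^ 2 - 2 * x₂ ^ 3 - 2 * y₂ ^ 2) * e₁ +
      (-W.a₁ ^ 2 * x₁ ^ 2 + W.a₁ ^ 2 * x₁ * x₂ - W.a₁ * W.a₃ * x₁ + W.a₁ * W.a₃ * x₂ +
        W.a₁ * x₂ * y₂ - 4 * W.a₂ * x₁ ^ 2 + 4 * W.a₂ * x₁ * x₂ - W.a₂ * x₂ ^ 2 + W.a₃ * y₂ -
        2 * W.a₄ * x₁ + W.a₄ * x₂ - W.a₆ - 4 * x₁ ^ 3 + 2 * x₁ ^ 2 * x₂ + 2 * x₁ * x₂ ^ 2 -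
        x₂ ^ 3 + y₂ ^ 2) * e₂

end Fermat.Agent.S58
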