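/-
S58 [RED-HOM] (helper21): sums involving a point of the kernel of reduction (`x ∉ A`), in every
residue characteristic, from the Kummer formulas.
* `s58r_inf_add_inf`: `x(P), x(Q) ∉ A` ⟹ `P + Q = 0` or `x(P + Q) ∉ A`;
* `s58r_inf_add_aff`: `x(P) ∉ A`, `Q` integral ⟹ `P + Q` integral with `x(P + Q) ≡ x(Q)`.
Prefix `s58r_`.
-/
import Mathlib
import Fermat.Agent.S05.Congruent
import Fermat.Agent.S58.Red.Val
import Fermat.Agent.S58.Red.Kummer

set_option autoImplicit false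

namespace Fermat.Agent.S58

open WeierstrassCurve WeierstrassCurve.Affine IsLocalRing Fermat.Agent.S05

variable {F : Type*} [Field F] [DecidableEq F] (A : ValuationSubring F)
  (WA : WeierstrassCurve A)

omit [DecidableEq F] in
/-- the inverse of a non-integral element, as a non-unit of `A` -/
theorem s58r_inv_mem_maximalIdeal {x : F} (hx : x ∉ A) :
    ∃ u : A, (u : F) = x⁻¹ ∧ u ∈ maximalIdeal A := by
  have h1 := s58r_one_lt_of_not_mem A hx
  have hv : A.valuation x⁻¹ < 1 := by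
    rw [map_inv₀]; exact inv_lt_one_of_one_lt₀ h1
  refine ⟨⟨x⁻¹, s58r_mem_of_lt_one A hv⟩, rfl, ?_⟩
  rw [A.valuation_lt_one_iff]
  exact hv

omit [DecidableEq F] in
theorem s58r_val_lt_one_of_mem_maximalIdeal {m : A} (hm : m ∈ maximalIdeal A) :
    A.valuation (m : F) < 1 := (A.valuation_lt_one_iff m).mp hm

omit [DecidableEq F] in
theorem s58r_val_eq_one_of_one_sub {m : A} (hm : m ∈ maximalIdeal A) :
    A.valuation ((1 - m : A) : F) = 1 := by
  have hu : IsUnit (1 - m) := by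
    by_contra h
    have h1 : (1 - m) ∈ maximalIdeal A := (mem_maximalIdeal _).mpr h
    have : (1 : A) ∈ maximalIdeal A := by
      have := Ideal.add_mem _ h1 hm
      rwa [sub_add_cancel] at this
    exact (Ideal.ne_top_iff_one _).mp (maximalIdeal.isMaximal A).ne_top this
  exact (A.valuation_eq_one_iff _).mp hu

omit [DecidableEq F] in
theorem s58r_coeff_mem :
    ((WA.map A.subtype).toAffine.a₁ : F) ∈ A ∧ ((WA.map A.subtype).toAffine.a₂ : F) ∈ A ∧
    ((WA.map A.subtype).toAffine.a₃ : F) ∈ A ∧ ((WA.map A.subtype).toAffine.a₄ : F) ∈ A ∧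
    ((WA.map A.subtype).toAffine.a₆ : F) ∈ A := by
  simp only [map_a₁, map_a₂, map_a₃, map_a₄, map_a₆]
  exact ⟨(WA.a₁).2, (WA.a₂).2, (WA.a₃).2, (WA.a₄).2, (WA.a₆).2⟩

omit [DecidableEq F] in
/-- integrality of the `y`-coordinate -/
theorem s58r_y_mem {x y : F} (hx : x ∈ A) (h : (WA.map A.subtype).toAffine.Equation x y) :
    y ∈ A := by
  obtain ⟨h1, h2, h3, h4, h6⟩ := s58r_coeff_mem A WA
  exact cg_y_mem A (WA.map A.subtype) h1 h2 h3 h4 h6 hx h

/-- **`E₁ + E₁ ⊆ E₁`.** -/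
theorem s58r_inf_add_inf {x₁ y₁ x₂ y₂ : F}
    (h₁ : (WA.map A.subtype).toAffine.Nonsingular x₁ y₁) (hx₁ : x₁ ∉ A)
    (h₂ : (WA.map A.subtype).toAffine.Nonsingular x₂ y₂) (hx₂ : x₂ ∉ A) :
    Point.some _ _ h₁ + Point.some _ _ h₂ = 0 ∨
      ∃ (x y : F) (h : (WA.map A.subtype).toAffine.Nonsingular x y),
        Point.some _ _ h₁ + Point.some _ _ h₂ = Point.some x y h ∧ x ∉ A := by
  obtain ⟨u₁, hu₁, hm₁⟩ := s58r_inv_mem_maximalIdeal A hx₁
  obtain ⟨u₂, hu₂, hm₂⟩ := s58r_inv_mem_maximalIdeal A hx₂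
  have hx₁0 : x₁ ≠ 0 := s58r_ne_zero_of_not_mem A hx₁
  have hx₂0 : x₂ ≠ 0 := s58r_ne_zero_of_not_mem A hx₂
  by_cases hx : x₁ = x₂
  · by_cases hy : y₁ = (WA.map A.subtype).toAffine.negY x₂ y₂
    · exact Or.inl (Point.add_of_Y_eq hx hy)
    · have hyy : y₁ = y₂ := (Y_eq_of_X_eq h₁.1 h₂.1 hx).resolve_right hy
      subst hx hyy
      rcases two_nsmul_some h₁ with ⟨-, h0⟩ | ⟨hψ, x', y', h', h2, hrel⟩
      · left
        rw [← two_nsmul]; exact h0
      · right
        refine ⟨x', y', h', by rw [← two_nsmul]; exact h2, ?_⟩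
        intro hx'
        -- normalised numerator and denominator
        set M : A := 4 * u₁ + WA.b₂ * u₁ ^ 2 + 2 * WA.b₄ * u₁ ^ 3 + WA.b₆ * u₁ ^ 4 with hM
        set m : A := WA.b₄ * u₁ ^ 2 + 2 * WA.b₆ * u₁ ^ 3 + WA.b₈ * u₁ ^ 4 with hm
        have hMm : M ∈ maximalIdeal A := by
          have : M = u₁ * (4 + WA.b₂ * u₁ + 2 * WA.b₄ * u₁ ^ 2 + WA.b₆ * u₁ ^ 3) := by
            rw [hM]; ring
          rw [this]; exact Ideal.mul_mem_right _ _ hm₁
        have hmm : m ∈ maximalIdeal A := by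
          have : m = u₁ * (WA.b₄ * u₁ + 2 * WA.b₆ * u₁ ^ 2 + WA.b₈ * u₁ ^ 3) := by
            rw [hm]; ring
          rw [this]; exact Ideal.mul_mem_right _ _ hm₁
        have e1 : psi2Sq (WA.map A.subtype).toAffine x₁ = x₁ ^ 4 * (M : F) := by
          simp only [psi2Sq, map_b₂, map_b₄, map_b₆, hM]
          push_cast
          rw [hu₁]
          simp only [ValuationSubring.subtype_apply, show ((4 : A) : F) = 4 from rfl,
            show ((2 : A) : F) = 2 from rfl]
          field_simp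
          try ring
        have e2 : dupNum (WA.map A.subtype).toAffine x₁ = x₁ ^ 4 * ((1 - m : A) : F) := by
          simp only [dupNum, map_b₄, map_b₆, map_b₈, hm]
          push_cast
          rw [hu₁]
          simp only [ValuationSubring.subtype_apply, show ((2 : A) : F) = 2 from rfl]
          field_simp
          try ring
        have e3 : x' * (M : F) = ((1 - m : A) : F) := by
          have h4 : x₁ ^ 4 ≠ 0 := pow_ne_zero 4 hx₁0
          apply mul_left_cancel₀ h4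
          rw [← e2, ← hrel, e1]; ring
        have v1 := s58r_val_eq_one_of_one_sub A hmm
        have v2 : A.valuation (x' * (M : F)) < 1 := by
          rw [map_mul]
          calc A.valuation x' * A.valuation (M : F) ≤ 1 * A.valuation (M : F) :=
                mul_le_mul' (s58r_le_one_of_mem A hx') le_rfl
            _ = A.valuation (M : F) := one_mul _
            _ < 1 := s58r_val_lt_one_of_mem_maximalIdeal A hMm
        rw [e3, v1] at v2
        exact lt_irrefl _ v2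
  · right
    obtain ⟨xp, yp, hp, xm, ym, hm, hadd, -, hs, hpr⟩ := s58r_add_sub h₁ h₂ hx
    refine ⟨xp, yp, hp, hadd, ?_⟩
    intro hxp
    set S : A := 2 * (u₁ + u₂) + WA.b₂ * u₁ * u₂ + WA.b₄ * (u₁ + u₂) * u₁ * u₂ +
      WA.b₆ * u₁ ^ 2 * u₂ ^ 2 with hS
    set m : A := WA.b₄ * u₁ * u₂ + WA.b₆ * (u₁ + u₂) * u₁ * u₂ + WA.b₈ * u₁ ^ 2 * u₂ ^ 2 with hmdef
    set Dd : A := (u₂ - u₁) ^ 2 with hDd
    have hSm : S ∈ maximalIdeal A := by
      have : S = u₁ * (2 + WA.b₂ * u₂ + WA.b₄ * (u₁ + u₂) * u₂ + WA.b₆ * u₁ * u₂ ^ 2) +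
          u₂ * 2 := by rw [hS]; ring
      rw [this]
      exact Ideal.add_mem _ (Ideal.mul_mem_right _ _ hm₁) (Ideal.mul_mem_right _ _ hm₂)
    have hmm : m ∈ maximalIdeal A := by
      have : m = u₁ * (WA.b₄ * u₂ + WA.b₆ * (u₁ + u₂) * u₂ + WA.b₈ * u₁ * u₂ ^ 2) := by
        rw [hmdef]; ring
      rw [this]; exact Ideal.mul_mem_right _ _ hm₁
    have hDm : Dd ∈ maximalIdeal A := by
      rw [hDd, pow_two]
      exact Ideal.mul_mem_left _ _ (Ideal.sub_mem _ hm₂ hm₁)
    have hxx : x₁ ^ 2 * x₂ ^ 2 ≠ 0 := mul_ne_zero (pow_ne_zero 2 hx₁0) (pow_ne_zero 2 hx₂0)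
    have e1 : sumNum (WA.map A.subtype).toAffine x₁ x₂ = x₁ ^ 2 * x₂ ^ 2 * (S : F) := by
      simp only [sumNum, map_b₂, map_b₄, map_b₆, hS]
      push_cast
      rw [hu₁, hu₂]
      simp only [ValuationSubring.subtype_apply, show ((2 : A) : F) = 2 from rfl]
      field_simp
      try ring
    have e2 : prodNum (WA.map A.subtype).toAffine x₁ x₂ =
        x₁ ^ 2 * x₂ ^ 2 * ((1 - m : A) : F) := by
      simp only [prodNum, map_b₄, map_b₆, map_b₈, hmdef]
      push_cast
      rw [hu₁, hu₂]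
      simp only [ValuationSubring.subtype_apply]
      field_simp
      try ring
    have e3 : (x₁ - x₂) ^ 2 = x₁ ^ 2 * x₂ ^ 2 * (Dd : F) := by
      simp only [hDd]
      push_cast
      rw [hu₁, hu₂]
      field_simp
    have f1 : (xp + xm) * (Dd : F) = (S : F) := by
      apply mul_left_cancel₀ hxx
      rw [← e1, ← hs, e3]; ring
    have f2 : xp * xm * (Dd : F) = ((1 - m : A) : F) := by
      apply mul_left_cancel₀ hxx
      rw [← e2, ← hpr, e3]; ring
    -- `xm * Dd = S - xp * Dd` has valuation `< 1`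
    have f3 : xm * (Dd : F) = (S : F) - xp * (Dd : F) := by linear_combination f1
    have vD := s58r_val_lt_one_of_mem_maximalIdeal A hDm
    have vS := s58r_val_lt_one_of_mem_maximalIdeal A hSm
    have v3 : A.valuation (xm * (Dd : F)) < 1 := by
      rw [f3]
      refine lt_of_le_of_lt (A.valuation.map_sub _ _) (max_lt vS ?_)
      rw [map_mul]
      calc A.valuation xp * A.valuation (Dd : F) ≤ 1 * A.valuation (Dd : F) :=
            mul_le_mul' (s58r_le_one_of_mem A hxp) le_rfl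
        _ = A.valuation (Dd : F) := one_mul _
        _ < 1 := vD
    have v4 : A.valuation (xp * xm * (Dd : F)) < 1 := by
      rw [mul_assoc, map_mul]
      calc A.valuation xp * A.valuation (xm * (Dd : F)) ≤ 1 * A.valuation (xm * (Dd : F)) :=
            mul_le_mul' (s58r_le_one_of_mem A hxp) le_rfl
        _ = A.valuation (xm * (Dd : F)) := one_mul _
        _ < 1 := v3
    rw [f2, s58r_val_eq_one_of_one_sub A hmm] at v4
    exact lt_irrefl _ v4


/-- **`E₁ + (integral point)`**: the sum is integral with the same `x`-coordinate modulo the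
maximal ideal. -/
theorem s58r_inf_add_aff {x₁ y₁ : F} {a₂ b₂ : A}
    (h₁ : (WA.map A.subtype).toAffine.Nonsingular x₁ y₁) (hx₁ : x₁ ∉ A)
    (h₂ : (WA.map A.subtype).toAffine.Nonsingular (a₂ : F) (b₂ : F)) :
    ∃ (a₃ b₃ : A) (h₃ : (WA.map A.subtype).toAffine.Nonsingular (a₃ : F) (b₃ : F)),
      Point.some _ _ h₁ + Point.some _ _ h₂ = Point.some _ _ h₃ ∧
      residue A a₃ = residue A a₂ := by
  obtain ⟨u, hu, hmu⟩ := s58r_inv_mem_maximalIdeal A hx₁
  have hx₁0 : x₁ ≠ 0 := s58r_ne_zero_of_not_mem A hx₁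
  have hx : x₁ ≠ (a₂ : F) := fun h => hx₁ (h ▸ a₂.2)
  obtain ⟨xp, yp, hp, xm, ym, hm, hadd, -, hs, hpr⟩ := s58r_add_sub h₁ h₂ hx
  set S : A := 2 * a₂ * (1 + u * a₂) + WA.b₂ * u * a₂ + WA.b₄ * (u + u ^ 2 * a₂) +
    WA.b₆ * u ^ 2 with hS
  set Pi : A := a₂ ^ 2 - WA.b₄ * u * a₂ - WA.b₆ * (u + u ^ 2 * a₂) - WA.b₈ * u ^ 2 with hPi
  set m : A := u * a₂ * (2 - u * a₂) with hmdef
  have hmm : m ∈ maximalIdeal A := by
    rw [hmdef, mul_assoc]; exact Ideal.mul_mem_right _ _ hmu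
  have hx2 : x₁ ^ 2 ≠ 0 := pow_ne_zero 2 hx₁0
  have e1 : sumNum (WA.map A.subtype).toAffine x₁ a₂ = x₁ ^ 2 * (S : F) := by
    simp only [sumNum, map_b₂, map_b₄, map_b₆, hS]
    push_cast
    rw [hu]
    simp only [ValuationSubring.subtype_apply, show ((2 : A) : F) = 2 from rfl]
    field_simp
    try ring
  have e2 : prodNum (WA.map A.subtype).toAffine x₁ a₂ = x₁ ^ 2 * (Pi : F) := by
    simp only [prodNum, map_b₄, map_b₆, map_b₈, hPi]
    push_cast
    rw [hu]
    simp only [ValuationSubring.subtype_apply]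
    field_simp
    try ring
  have e3 : (x₁ - (a₂ : F)) ^ 2 = x₁ ^ 2 * ((1 - m : A) : F) := by
    simp only [hmdef]
    push_cast
    rw [hu]
    simp only [show ((2 : A) : F) = 2 from rfl]
    field_simp
    try ring
  -- `1 - m` is a unit
  have hunit : IsUnit (1 - m) := (A.valuation_eq_one_iff _).mpr (s58r_val_eq_one_of_one_sub A hmm)
  obtain ⟨e, he⟩ := hunit
  have hed : (↑e⁻¹ : A) * (1 - m) = 1 := by rw [← he]; exact Units.inv_mul e
  have hd0 : ((1 - m : A) : F) ≠ 0 := by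
    intro h0
    have := s58r_val_eq_one_of_one_sub A hmm
    rw [h0, map_zero] at this
    exact zero_ne_one this
  have f1 : xp + xm = ((S * ↑e⁻¹ : A) : F) := by
    have h1 : (xp + xm) * ((1 - m : A) : F) = (S : F) := by
      apply mul_left_cancel₀ hx2
      rw [← e1, ← hs, e3]; ring
    have h2 : ((S * ↑e⁻¹ : A) : F) * ((1 - m : A) : F) = (S : F) := by
      have : (S * ↑e⁻¹ : A) * (1 - m) = S := by rw [mul_assoc, hed, mul_one]
      exact_mod_cast congrArg (fun z : A => (z : F)) this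
    exact mul_right_cancel₀ hd0 (h1.trans h2.symm)
  have f2 : xp * xm = ((Pi * ↑e⁻¹ : A) : F) := by
    have h1 : xp * xm * ((1 - m : A) : F) = (Pi : F) := by
      apply mul_left_cancel₀ hx2
      rw [← e2, ← hpr, e3]; ring
    have h2 : ((Pi * ↑e⁻¹ : A) : F) * ((1 - m : A) : F) = (Pi : F) := by
      have : (Pi * ↑e⁻¹ : A) * (1 - m) = Pi := by rw [mul_assoc, hed, mul_one]
      exact_mod_cast congrArg (fun z : A => (z : F)) this
    exact mul_right_cancel₀ hd0 (h1.trans h2.symm)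
  have hroot : xp ^ 2 - ((S * ↑e⁻¹ : A) : F) * xp + ((Pi * ↑e⁻¹ : A) : F) = 0 := by
    rw [← f1, ← f2]; ring
  have hxpA : xp ∈ A := s58r_root_mem A (S * ↑e⁻¹ : A).2 (Pi * ↑e⁻¹ : A).2 hroot
  have hypA : yp ∈ A := s58r_y_mem A WA hxpA hp.1
  refine ⟨⟨xp, hxpA⟩, ⟨yp, hypA⟩, hp, hadd, ?_⟩
  -- the residue of `xp`
  set a₃ : A := ⟨xp, hxpA⟩ with ha₃
  have hrootA : a₃ ^ 2 - S * ↑e⁻¹ * a₃ + Pi * ↑e⁻¹ = 0 := by
    apply Subtype.coe_injective
    show ((a₃ ^ 2 - S * ↑e⁻¹ * a₃ + Pi * ↑e⁻¹ : A) : F) = ((0 : A) : F)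
    push_cast
    exact hroot
  have hπu : residue A u = 0 := (residue_eq_zero_iff u).mpr hmu
  have hπm : residue A m = 0 := (residue_eq_zero_iff m).mpr hmm
  have hπe : residue A (↑e⁻¹ : A) = 1 := by
    have := congrArg (residue A) hed
    rwa [map_mul, map_sub, map_one, hπm, sub_zero, mul_one] at this
  have hπS : residue A S = 2 * residue A a₂ := by
    simp only [hS, map_add, map_mul, map_pow, map_one, hπu, map_ofNat]
    ring
  have hπP : residue A Pi = residue A a₂ ^ 2 := by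
    simp only [hPi, map_sub, map_add, map_mul, map_pow, hπu]
    ring
  have h0 := congrArg (residue A) hrootA
  simp only [map_add, map_sub, map_mul, map_pow, map_zero, hπe, hπS, hπP] at h0
  have hsq : (residue A a₃ - residue A a₂) ^ 2 = 0 := by linear_combination h0
  exact sub_eq_zero.mp (pow_eq_zero_iff two_ne_zero |>.mp hsq)

end Fermat.Agent.S58
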