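/-
S58 [RED-HOM] (helper21): the reduction relation is additive.

`s58r_redTo_add`: `P ↦ R`, `Q ↦ S` ⟹ `P + Q ↦ R + S`, for the points of `WA.map A.subtype` over `F`
and of `WA.map (residue A)` over the residue field; any Weierstrass equation `WA` over the
valuation ring, any residue characteristic, singular reduction allowed (the relation only sees
points with nonsingular reduction).  Prefix `s58r_`.
-/
import Mathlib
import Fermat.Agent.S58.Red.Chord
import Fermat.Agent.S58.Red.E1

set_option autoImplicit false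

namespace Fermat.Agent.S58

open WeierstrassCurve WeierstrassCurve.Affine IsLocalRing

variable {F : Type*} [Field F] [DecidableEq F] (A : ValuationSubring F)
  [DecidableEq (ResidueField A)] (WA : WeierstrassCurve A)

omit [DecidableEq F] [DecidableEq (ResidueField A)] in
theorem s58r_some_congr {K : Type*} [Field K] {W : Affine K} {x y x' y' : K} (hx : x = x')
    (hy : y = y') (h : W.Nonsingular x y) (h' : W.Nonsingular x' y') :
    Point.some x y h = Point.some x' y' h' := by
  subst hx hy; rfl

omit [DecidableEq F] [DecidableEq (ResidueField A)] in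
/-- the reduced equation -/
theorem s58r_equation_residue {a b : A}
    (h : (WA.map A.subtype).toAffine.Equation (a : F) (b : F)) :
    (WA.map (residue A)).toAffine.Equation (residue A a) (residue A b) := by
  have hinj : Function.Injective A.subtype := Subtype.coe_injective
  have e : WA.toAffine.Equation a b := (map_equation (W := WA.toAffine) hinj a b).mp h
  exact e.map (residue A)

/-- a point of the kernel of reduction plus an integral point with nonsingular reduction -/
theorem s58r_redTo_inf_add_aff {x₁ y₁ : F} {a₂ b₂ : A}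
    (h₁ : (WA.map A.subtype).toAffine.Nonsingular x₁ y₁) (hx₁ : x₁ ∉ A)
    (h₂ : (WA.map A.subtype).toAffine.Nonsingular (a₂ : F) (b₂ : F))
    (h₂' : (WA.map (residue A)).toAffine.Nonsingular (residue A a₂) (residue A b₂)) :
    s58r_RedTo A (Point.some _ _ h₁ + Point.some _ _ h₂) (Point.some _ _ h₂') := by
  obtain ⟨a₃, b₃, h₃, hT, hπa⟩ := s58r_inf_add_aff A WA h₁ hx₁ h₂
  have e₃ := s58r_equation_residue A WA h₃.1
  by_cases hb : residue A b₃ = residue A b₂
  · have h₃' : (WA.map (residue A)).toAffine.Nonsingular (residue A a₃) (residue A b₃) := by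
      rw [hπa, hb]; exact h₂'
    rw [hT, ← s58r_some_congr hπa hb h₃' h₂']
    exact s58r_RedTo.aff a₃ b₃ h₃ h₃'
  · exfalso
    have hb' : residue A b₃ =
        (WA.map (residue A)).toAffine.negY (residue A a₂) (residue A b₂) :=
      (Y_eq_of_X_eq e₃ h₂'.1 hπa).resolve_left hb
    -- `-Q` as an integral point
    set c : A := WA.toAffine.negY a₂ b₂ with hc
    have hcF : (WA.map A.subtype).toAffine.negY (a₂ : F) (b₂ : F) = (c : F) :=
      map_negY (W' := WA.toAffine) A.subtype a₂ b₂
    have hck : (WA.map (residue A)).toAffine.negY (residue A a₂) (residue A b₂) = residue A c :=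
      map_negY (W' := WA.toAffine) (residue A) a₂ b₂
    have hn₂ : (WA.map A.subtype).toAffine.Nonsingular (a₂ : F) (c : F) := by
      rw [← hcF]; exact (nonsingular_neg ..).mpr h₂
    have hn₂' : (WA.map (residue A)).toAffine.Nonsingular (residue A a₂) (residue A c) := by
      rw [← hck]; exact (nonsingular_neg ..).mpr h₂'
    have hnegQ : -Point.some _ _ h₂ = Point.some _ _ hn₂ := by
      rw [Point.neg_some]; exact s58r_some_congr rfl hcF _ _
    have h₃' : (WA.map (residue A)).toAffine.Nonsingular (residue A a₃) (residue A b₃) := by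
      rw [hπa, hb']; exact (nonsingular_neg ..).mpr h₂'
    have hne : ¬ (residue A a₃ = residue A a₂ ∧
        residue A b₃ = (WA.map (residue A)).toAffine.negY (residue A a₂) (residue A c)) := by
      rintro ⟨-, h⟩
      rw [← hck, negY_negY] at h
      exact hb h
    obtain ⟨a₄, b₄, h₄, -, hsum, -⟩ := s58r_aff_add_aff A WA h₃ hn₂ h₃' hn₂' hne
    have hP : Point.some _ _ h₃ + Point.some _ _ hn₂ = Point.some _ _ h₁ := by
      rw [← hT, ← hnegQ, add_neg_cancel_right]
    rw [hP] at hsum
    have hx : x₁ = (a₄ : F) := (Point.some.inj hsum).1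
    exact hx₁ (hx ▸ a₄.2)

/-- **Additivity of the reduction relation.** -/
theorem s58r_redTo_add {P Q : (WA.map A.subtype).toAffine.Point}
    {R S : (WA.map (residue A)).toAffine.Point}
    (hP : s58r_RedTo A P R) (hQ : s58r_RedTo A Q S) : s58r_RedTo A (P + Q) (R + S) := by
  cases hP with
  | zero => rw [zero_add, zero_add]; exact hQ
  | inf h₁ hx₁ =>
    cases hQ with
    | zero => rw [add_zero, add_zero]; exact s58r_RedTo.inf h₁ hx₁
    | inf h₂ hx₂ =>
      rw [add_zero]
      rcases s58r_inf_add_inf A WA h₁ hx₁ h₂ hx₂ with h0 | ⟨x, y, h, hs, hx⟩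
      · rw [h0]; exact s58r_RedTo.zero
      · rw [hs]; exact s58r_RedTo.inf h hx
    | aff a₂ b₂ h₂ h₂' =>
      rw [zero_add]
      exact s58r_redTo_inf_add_aff A WA h₁ hx₁ h₂ h₂'
  | aff a₁ b₁ h₁ h₁' =>
    cases hQ with
    | zero => rw [add_zero, add_zero]; exact s58r_RedTo.aff a₁ b₁ h₁ h₁'
    | inf h₂ hx₂ =>
      rw [add_zero, add_comm]
      exact s58r_redTo_inf_add_aff A WA h₂ hx₂ h₁ h₁'
    | aff a₂ b₂ h₂ h₂' =>
      by_cases hinv : residue A a₁ = residue A a₂ ∧
          residue A b₁ = (WA.map (residue A)).toAffine.negY (residue A a₂) (residue A b₂)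
      · rw [Point.add_of_Y_eq hinv.1 hinv.2]
        rcases s58r_aff_add_aff_inv A WA h₁ h₂ h₂' hinv.1 hinv.2 with h0 | ⟨x, y, h, hs, hx⟩
        · rw [h0]; exact s58r_RedTo.zero
        · rw [hs]; exact s58r_RedTo.inf h hx
      · obtain ⟨a₃, b₃, h₃, h₃', e, e'⟩ := s58r_aff_add_aff A WA h₁ h₂ h₁' h₂' hinv
        rw [e, e']
        exact s58r_RedTo.aff a₃ b₃ h₃ h₃'

end Fermat.Agent.S58
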