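/-
S58 [RED-HOM] (helper21): THE REDUCTION HOMOMORPHISM, all residue characteristics, any reduction
type.

`F` a field, `A : ValuationSubring F`, `κ := ResidueField A`, `W : Affine F`, `Wk : Affine κ`,
`hM : s58r_Model A W Wk` (some Weierstrass equation `WA` over `A` maps to `W` and to `Wk`).
* `s58r_RedTo A P R` (Chord.lean): `P ∈ W(F)` reduces to the nonsingular point `R ∈ Wk(κ)`.
* `s58r_E0 A hM : AddSubgroup W.Point`: the points having a (nonsingular) reduction.
* `s58r_red A hM : s58r_E0 A hM →+ Wk.Point`, `s58r_red_spec`, `s58r_red_some` (coordinates),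
  `s58r_red_eq_zero_iff` (kernel = `{0} ∪ {x ∉ A}`), `s58r_red_injective_on_torsion`.
* `s58r_mem_E0_of_equation`: if `Wk.Δ ≠ 0` every point is in `E0`.
Prefix `s58r_`.
-/
import Mathlib
import Fermat.Agent.S58.Red.Add
import Fermat.Agent.S13.Local.NoTorsionTwo

set_option autoImplicit false

namespace Fermat.Agent.S58

open WeierstrassCurve WeierstrassCurve.Affine IsLocalRing

variable {F : Type*} [Field F] [DecidableEq F] (A : ValuationSubring F)
  [DecidableEq (ResidueField A)]

/-- `W` over `F` and `Wk` over the residue field come from one Weierstrass equation over `A`. -/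
def s58r_Model (W : Affine F) (Wk : Affine (ResidueField A)) : Prop :=
  ∃ WA : WeierstrassCurve A, WA.map A.subtype = W ∧ WA.map (residue A) = Wk

variable {A} {W : Affine F} {Wk : Affine (ResidueField A)}

omit [DecidableEq F] [DecidableEq (ResidueField A)] in
theorem s58r_redTo_unique {P : W.Point} {R R' : Wk.Point} (h : s58r_RedTo A P R)
    (h' : s58r_RedTo A P R') : R = R' := by
  cases h with
  | zero =>
    cases h' with
    | zero => rfl
  | inf h₁ hx₁ =>
    cases h' with
    | inf _ _ => rfl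
    | aff a b _ _ => exact absurd a.2 hx₁
  | aff a b h₁ h₁' =>
    generalize hP : Point.some (a : F) (b : F) h₁ = P at h'
    cases h' with
    | zero => exact absurd hP (Point.some_ne_zero h₁)
    | inf h₂ hx₂ =>
      have := (Point.some.inj hP).1
      exact absurd (this ▸ a.2) hx₂
    | aff a' b' h₂ h₂' =>
      obtain ⟨hx, hy⟩ := Point.some.inj hP
      have ha : a = a' := Subtype.ext hx
      have hb : b = b' := Subtype.ext hy
      subst ha hb
      rfl

omit [DecidableEq F] [DecidableEq (ResidueField A)] in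
theorem s58r_redTo_neg (hM : s58r_Model A W Wk) {P : W.Point} {R : Wk.Point}
    (h : s58r_RedTo A P R) : s58r_RedTo A (-P) (-R) := by
  obtain ⟨WA, rfl, rfl⟩ := hM
  cases h with
  | zero => exact s58r_RedTo.zero
  | inf h₁ hx₁ =>
    have h0 : (-(0 : (WA.map (residue A)).toAffine.Point)) = 0 := rfl
    rw [Point.neg_some, h0]
    exact s58r_RedTo.inf _ hx₁
  | aff a b h₁ h₁' =>
    rw [Point.neg_some, Point.neg_some]
    have hcF : (WA.map A.subtype).toAffine.negY (a : F) (b : F) =
        ((WA.toAffine.negY a b : A) : F) := map_negY (W' := WA.toAffine) A.subtype a b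
    have hck : (WA.map (residue A)).toAffine.negY (residue A a) (residue A b) =
        residue A (WA.toAffine.negY a b) := map_negY (W' := WA.toAffine) (residue A) a b
    have hn : (WA.map A.subtype).toAffine.Nonsingular (a : F) ((WA.toAffine.negY a b : A) : F) := by
      rw [← hcF]; exact (nonsingular_neg ..).mpr h₁
    have hn' : (WA.map (residue A)).toAffine.Nonsingular (residue A a)
        (residue A (WA.toAffine.negY a b)) := by
      rw [← hck]; exact (nonsingular_neg ..).mpr h₁'
    rw [s58r_some_congr rfl hcF _ hn, s58r_some_congr rfl hck _ hn']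
    exact s58r_RedTo.aff a _ hn hn'

theorem s58r_redTo_add' (hM : s58r_Model A W Wk) {P Q : W.Point} {R S : Wk.Point}
    (hP : s58r_RedTo A P R) (hQ : s58r_RedTo A Q S) : s58r_RedTo A (P + Q) (R + S) := by
  obtain ⟨WA, rfl, rfl⟩ := hM
  exact s58r_redTo_add A WA hP hQ

/-- the subgroup of points with nonsingular reduction -/
def s58r_E0 (hM : s58r_Model A W Wk) : AddSubgroup W.Point where
  carrier := {P | ∃ R : Wk.Point, s58r_RedTo A P R}
  zero_mem' := ⟨0, s58r_RedTo.zero⟩
  add_mem' := fun ⟨R, hR⟩ ⟨S, hS⟩ => ⟨R + S, s58r_redTo_add' hM hR hS⟩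
  neg_mem' := fun ⟨R, hR⟩ => ⟨-R, s58r_redTo_neg hM hR⟩

theorem s58r_mem_E0 (hM : s58r_Model A W Wk) {P : W.Point} :
    P ∈ s58r_E0 hM ↔ ∃ R : Wk.Point, s58r_RedTo A P R := Iff.rfl

/-- **the reduction homomorphism** -/
noncomputable def s58r_red (hM : s58r_Model A W Wk) : s58r_E0 hM →+ Wk.Point where
  toFun P := P.2.choose
  map_zero' := s58r_redTo_unique (s58r_E0 hM).zero_mem.choose_spec s58r_RedTo.zero
  map_add' P Q :=
    s58r_redTo_unique ((s58r_E0 hM).add_mem P.2 Q.2).choose_spec
      (s58r_redTo_add' hM P.2.choose_spec Q.2.choose_spec)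

theorem s58r_red_spec (hM : s58r_Model A W Wk) (P : s58r_E0 hM) :
    s58r_RedTo A (P : W.Point) (s58r_red hM P) := P.2.choose_spec

theorem s58r_red_eq (hM : s58r_Model A W Wk) (P : s58r_E0 hM) {R : Wk.Point}
    (h : s58r_RedTo A (P : W.Point) R) : s58r_red hM P = R :=
  s58r_redTo_unique (s58r_red_spec hM P) h

/-- the coordinates of the reduction of an integral point -/
theorem s58r_red_some (hM : s58r_Model A W Wk) (P : s58r_E0 hM) {a b : A}
    {h : W.Nonsingular (a : F) (b : F)} (hP : (P : W.Point) = Point.some _ _ h) :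
    ∃ h' : Wk.Nonsingular (residue A a) (residue A b),
      s58r_red hM P = Point.some _ _ h' := by
  have hs := s58r_red_spec hM P
  rw [hP] at hs
  generalize hR : s58r_red hM P = R at hs ⊢
  generalize hQ : Point.some (a : F) (b : F) h = Q at hs
  cases hs with
  | zero => exact absurd hQ (Point.some_ne_zero h)
  | inf h₂ hx₂ => exact absurd ((Point.some.inj hQ).1 ▸ a.2) hx₂
  | aff a' b' h₂ h₂' =>
    obtain ⟨hx, hy⟩ := Point.some.inj hQ
    have ha : a = a' := Subtype.ext hx
    have hb : b = b' := Subtype.ext hy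
    subst ha hb
    exact ⟨h₂', rfl⟩

/-- the kernel of reduction is `{0} ∪ {x ∉ A}` -/
theorem s58r_red_eq_zero_iff (hM : s58r_Model A W Wk) (P : s58r_E0 hM) :
    s58r_red hM P = 0 ↔ Fermat.Agent.S05.InKerRed A (P : W.Point) := by
  have hs := s58r_red_spec hM P
  generalize hR : s58r_red hM P = R at hs ⊢
  generalize hQ : (P : W.Point) = Q at hs ⊢
  cases hs with
  | zero => exact ⟨fun _ => Or.inl rfl, fun _ => rfl⟩
  | inf h₁ hx₁ => exact ⟨fun _ => Or.inr hx₁, fun _ => rfl⟩
  | aff a b h₁ h₁' =>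
    refine ⟨fun h0 => absurd h0 (Point.some_ne_zero h₁'), ?_⟩
    rintro (h0 | hx)
    · exact absurd h0 (Point.some_ne_zero h₁)
    · exact absurd a.2 hx

omit [DecidableEq F] [DecidableEq (ResidueField A)] in
theorem s58r_b_mem (hM : s58r_Model A W Wk) :
    W.b₂ ∈ A ∧ W.b₄ ∈ A ∧ W.b₆ ∈ A ∧ W.b₈ ∈ A := by
  obtain ⟨WA, rfl, rfl⟩ := hM
  simp only [map_b₂, map_b₄, map_b₆, map_b₈]
  exact ⟨(WA.b₂).2, (WA.b₄).2, (WA.b₆).2, (WA.b₈).2⟩

/-- **the reduction is injective on the `n`-torsion**, `n` a unit of `A` -/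
theorem s58r_red_injective_on_torsion (hM : s58r_Model A W Wk) {n : ℕ}
    (hn : A.valuation (n : F) = 1) {P : s58r_E0 hM} (hP : n • (P : W.Point) = 0)
    (h0 : s58r_red hM P = 0) : P = 0 := by
  obtain ⟨h2, h4, h6, h8⟩ := s58r_b_mem hM
  have := Fermat.Agent.S13.nt2_eq_zero_of_nsmul_eq_zero h2 h4 h6 h8 hn
    ((s58r_red_eq_zero_iff hM P).mp h0) hP
  exact Subtype.ext this

/-- good reduction: every point has a nonsingular reduction -/
theorem s58r_mem_E0_of_good (hM : s58r_Model A W Wk) (hΔ : Wk.Δ ≠ 0) (P : W.Point) :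
    P ∈ s58r_E0 hM := by
  obtain ⟨WA, rfl, rfl⟩ := id hM
  rcases P with _ | ⟨x, y, h⟩
  · exact (s58r_E0 hM).zero_mem
  · by_cases hx : x ∈ A
    · have hy : y ∈ A := s58r_y_mem A WA hx h.1
      have he := s58r_equation_residue A WA (a := ⟨x, hx⟩) (b := ⟨y, hy⟩) h.1
      have hn := (equation_iff_nonsingular_of_Δ_ne_zero hΔ).mp he
      exact ⟨_, s58r_RedTo.aff ⟨x, hx⟩ ⟨y, hy⟩ h hn⟩
    · exact ⟨0, s58r_RedTo.inf h hx⟩

end Fermat.Agent.S58
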